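import Fermat.Agent.S55.Local.H959.RamExp
import Fermat.Agent.S55.Local.H715.Integers
import Fermat.Agent.S55.Local.H312.UR1
import Fermat.Agent.S55.Local.H608.LF

/-!
# S55, layer L, piece UR6' (helper959): `InertiaCardStatement`

`theorem inertiaCard : Fermat.Agent.S55.Local.InertiaCardStatement`.

For a finite Galois extension `N / E` of local fields let `R = integralClosure A E`,
`S = integralClosure R N`, `P = (ϖN) ⊆ S` the maximal ideal and `J = P.inertia Gal(N/E)`
(Mathlib).  Then

* `σ ∈ J ↔ ∀ x integral, σ x - x ∈ P` (a description that only mentions `N`, so that the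
  inertia groups of `N / K` and of `N / E`, `E` intermediate, are related by
  `J_E ≃ Gal(N/E) ⊓ J_K`),
* `|J| = e(N/E)`, i.e. `ϖE = unit * ϖN ^ |J|`
  (Mathlib `Ideal.card_inertia_eq_ramificationIdxIn` + `Ideal.ramificationIdx'_spec`),

(`exists_inertia`).  With `I = J_K`, `b = |Gal(N/E) ⊓ I| = e(N/E)`, `n = |I| = e(N/K)`,
`a = e(E/K)`, `n = a * b` (`RamExp.lean`):
`N / E` unramified `↔ b = 1 ↔ Gal(N/E) ⊓ I = ⊥`, and
`E / K` unramified `↔ a = 1 ↔ b = n ↔ I ≤ Gal(N/E)`.
-/

set_option autoImplicit false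
set_option linter.overlappingInstances false
set_option linter.style.haveILetI false
set_option linter.unusedSectionVars false

namespace Fermat.Agent.S55.Local.H959

open Fermat.Agent.S55.Local
open scoped Pointwise

section AKLB

variable (R K L S : Type) [CommRing R] [IsDomain R] [IsDedekindDomain R]
  [Field K] [Field L] [Algebra R K] [IsFractionRing R K] [Algebra K L] [Algebra R L]
  [IsScalarTower R K L] [FiniteDimensional K L] [IsGalois K L]
  [CommRing S] [IsDomain S] [IsDedekindDomain S] [Algebra R S] [Algebra S L]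
  [IsScalarTower R S L] [IsIntegralClosure S R L] [Module.Finite R S] [IsFractionRing S L]
  [Module.Flat R S]

attribute [local instance] Ideal.Quotient.field in
/-- Abstract core: the order of the inertia group of a maximal ideal `P` of `S` is the exponent
`e` with `p S ⊆ P ^ e`, `p S ⊄ P ^ (e + 1)`. -/
theorem card_inertia_gal (P : Ideal S) [P.IsMaximal] (hfin : Finite (R ⧸ P.under R)) (e : ℕ)
    (hle : (P.under R).map (algebraMap R S) ≤ P ^ e)
    (hgt : ¬ (P.under R).map (algebraMap R S) ≤ P ^ (e + 1))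
    (hne : (P.under R).map (algebraMap R S) ≠ ⊥) :
    letI : MulSemiringAction Gal(L/K) S := IsIntegralClosure.MulSemiringAction R K L S
    Nat.card (P.inertia Gal(L/K)) = e := by
  letI : MulSemiringAction Gal(L/K) S := IsIntegralClosure.MulSemiringAction R K L S
  haveI : IsGaloisGroup Gal(L/K) R S := IsGaloisGroup.of_isFractionRing _ _ _ K L
  have hint : Algebra.IsIntegral R S := inferInstance
  haveI hPmax : (P.under R).IsMaximal := Ideal.isMaximal_comap_of_isIntegral_of_isMaximal P
  have h1 := Ideal.card_inertia_eq_ramificationIdxIn (G := Gal(L/K)) (P.under R) P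
  rw [Ideal.ramificationIdxIn_eq_ramificationIdx (P.under R) P Gal(L/K),
    ← Ideal.ramificationIdx'_eq_ramificationIdx' (P.under R) P hne] at h1
  rw [h1]
  exact Ideal.ramificationIdx'_spec hle hgt

end AKLB

section InMax

variable (A F : Type) [CommRing A] [Field F] [Algebra A F]
variable (L : Type) [Field L] [Algebra F L]

/-- `y` lies in the maximal ideal of the ring of integers of `L`: it is integral and not
invertible in the ring of integers. -/
def InMax (y : L) : Prop := IsInt A F L y ∧ ∀ z : L, IsInt A F L z → y * z ≠ 1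

variable {A F L}

lemma inMax_iff_of_unif {ϖ : Lˣ} (h : IsUnif A F L ϖ) (y : L) :
    InMax A F L y ↔ IsInt A F L (y * ((ϖ⁻¹ : Lˣ) : L)) := by
  constructor
  · rintro ⟨hy, hz⟩
    rcases eq_or_ne y 0 with rfl | hy0
    · rw [zero_mul]; exact isInt_zero A F L
    rcases H294.unif_unit_or_dvd h (Units.mk0 y hy0) hy with hu | ⟨b, hb, hyb⟩
    · have hinv : IsInt A F L y⁻¹ := by simpa using hu.2
      exact absurd (mul_inv_cancel₀ hy0) (hz _ hinv)
    · rw [Units.val_mk0] at hyb
      have : y * ((ϖ⁻¹ : Lˣ) : L) = b := by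
        rw [hyb, mul_comm (ϖ : L) b, mul_assoc, ← Units.val_mul, mul_inv_cancel, Units.val_one,
          mul_one]
      rw [this]; exact hb
  · intro hy
    have hy' : y = y * ((ϖ⁻¹ : Lˣ) : L) * (ϖ : L) := by
      rw [mul_assoc, ← Units.val_mul, inv_mul_cancel, Units.val_one, mul_one]
    refine ⟨by rw [hy']; exact hy.mul h.1, fun z hz hyz => H294.unif_not_isInt_inv h ?_⟩
    have : ((ϖ⁻¹ : Lˣ) : L) = y * ((ϖ⁻¹ : Lˣ) : L) * z := by
      rw [mul_comm y, mul_assoc, hyz, mul_one]
    rw [this]; exact hy.mul hz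

/-- Membership of `x * ϖ ^ (-k)` in the integers, in terms of the exponent of `x`. -/
lemma isInt_mul_zpow_iff {ϖ : Lˣ} (h : IsUnif A F L ϖ) {x : Lˣ} {n : ℤ}
    (hn : x * ϖ ^ (-n) ∈ intUnits A F L) (k : ℤ) :
    IsInt A F L ((x * ϖ ^ (-k) : Lˣ) : L) ↔ k ≤ n := by
  have hn' : x * ϖ ^ (-k) * ϖ ^ (-(n - k)) ∈ intUnits A F L := by
    have : x * ϖ ^ (-k) * ϖ ^ (-(n - k)) = x * ϖ ^ (-n) := by
      rw [mul_assoc, ← zpow_add]; congr 2; ring
    rwa [this]
  constructor
  · intro hx
    have := unif_exp_nonneg h hn' hx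
    omega
  · intro hk
    exact unif_isInt_of_exp_nonneg h hn' (by omega)

end InMax

section Bridge

variable (A F : Type) [CommRing A] [IsDomain A] [IsDiscreteValuationRing A]
  [IsAdicComplete (IsLocalRing.maximalIdeal A) A] [Finite (IsLocalRing.ResidueField A)]
  [Field F] [CharZero F] [Algebra A F] [IsFractionRing A F]
  (E : Type) [Field E] [Algebra F E] [FiniteDimensional F E]
  (N : Type) [Field N] [Algebra F N] [Algebra E N] [IsScalarTower F E N]
  [FiniteDimensional E N] [IsGalois E N]
  [Algebra A E] [IsScalarTower A F E] [Algebra A N] [IsScalarTower A F N] [IsScalarTower A E N]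

attribute [local instance] H312.isScalarTower_intClosure

lemma mem_ON_iff (x : N) :
    x ∈ integralClosure (integralClosure A E) N ↔ IsInt A F N x := by
  rw [H715.isInt_iff A F N x]
  constructor
  · intro hx
    exact isIntegral_trans (R := A) (A := integralClosure A E) x hx
  · intro hx
    exact hx.tower_top

/-- A uniformizer of `N`, as an element of the ring of integers. -/
def unifON {ϖ : Nˣ} (h : IsUnif A F N ϖ) : integralClosure (integralClosure A E) N :=
  ⟨(ϖ : N), (mem_ON_iff A F E N _).2 h.1⟩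

/-- The maximal ideal of the ring of integers of `N`. -/
def maxON {ϖ : Nˣ} (h : IsUnif A F N ϖ) : Ideal (integralClosure (integralClosure A E) N) :=
  Ideal.span {unifON A F E N h}

lemma mem_maxON_pow {ϖ : Nˣ} (h : IsUnif A F N ϖ) (k : ℕ)
    (x : integralClosure (integralClosure A E) N) :
    x ∈ maxON A F E N h ^ k ↔ IsInt A F N ((x : N) * ((ϖ ^ (-(k : ℤ)) : Nˣ) : N)) := by
  have hz : ((ϖ ^ (-(k : ℤ)) : Nˣ) : N) = ((ϖ : N) ^ k)⁻¹ := by
    rw [zpow_neg, zpow_natCast, Units.val_inv_eq_inv_val, Units.val_pow_eq_pow_val]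
  have hϖ0 : (ϖ : N) ^ k ≠ 0 := pow_ne_zero _ ϖ.ne_zero
  rw [maxON, Ideal.span_singleton_pow, Ideal.mem_span_singleton, hz]
  constructor
  · rintro ⟨s, rfl⟩
    have : (((unifON A F E N h) ^ k * s : integralClosure (integralClosure A E) N) : N) *
        ((ϖ : N) ^ k)⁻¹ = (s : N) := by
      rw [Subalgebra.coe_mul, Subalgebra.coe_pow]
      show (ϖ : N) ^ k * (s : N) * ((ϖ : N) ^ k)⁻¹ = (s : N)
      rw [mul_comm, ← mul_assoc, inv_mul_cancel₀ hϖ0, one_mul]
    rw [this]
    exact (mem_ON_iff A F E N _).1 s.2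
  · intro hx
    refine ⟨⟨_, (mem_ON_iff A F E N _).2 hx⟩, Subtype.ext ?_⟩
    rw [Subalgebra.coe_mul, Subalgebra.coe_pow]
    show (x : N) = (ϖ : N) ^ k * ((x : N) * ((ϖ : N) ^ k)⁻¹)
    rw [mul_comm (x : N), ← mul_assoc, mul_inv_cancel₀ hϖ0, one_mul]

lemma mem_maxON_iff {ϖ : Nˣ} (h : IsUnif A F N ϖ)
    (x : integralClosure (integralClosure A E) N) :
    x ∈ maxON A F E N h ↔ InMax A F N (x : N) := by
  have := mem_maxON_pow A F E N h 1 x
  rw [pow_one] at this
  rw [this, inMax_iff_of_unif h]
  simp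

lemma maxON_isMaximal {ϖ : Nˣ} (h : IsUnif A F N ϖ) : (maxON A F E N h).IsMaximal := by
  rw [Ideal.isMaximal_iff]
  refine ⟨?_, fun J x _ hx hxJ => ?_⟩
  · intro h1
    have := (mem_maxON_iff A F E N h 1).1 h1
    exact this.2 1 (isInt_one A F N) (by simp)
  · have hxint : IsInt A F N (x : N) := (mem_ON_iff A F E N _).1 x.2
    have hinv : IsInt A F N ((x : N))⁻¹ := by
      by_contra hcon
      apply hx
      rw [mem_maxON_iff]
      refine ⟨hxint, fun z hz hxz => hcon ?_⟩
      have : ((x : N))⁻¹ = z := inv_eq_of_mul_eq_one_right hxz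
      rwa [this]
    have hx0 : (x : N) ≠ 0 := by
      intro h0
      apply hx
      have : x = 0 := Subtype.ext h0
      rw [this]
      exact Ideal.zero_mem _
    have : (1 : integralClosure (integralClosure A E) N) =
        x * ⟨((x : N))⁻¹, (mem_ON_iff A F E N _).2 hinv⟩ := by
      apply Subtype.ext
      rw [Subalgebra.coe_mul]
      show (1 : N) = (x : N) * ((x : N))⁻¹
      rw [mul_inv_cancel₀ hx0]
    rw [this]
    exact J.mul_mem_right _ hxJ

lemma coe_algebraMap_OE_ON (r : integralClosure A E) :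
    ((algebraMap (integralClosure A E) (integralClosure (integralClosure A E) N) r :
      integralClosure (integralClosure A E) N) : N) = algebraMap E N (r : E) := rfl

omit [IsDomain A] [IsDiscreteValuationRing A]
  [IsAdicComplete (IsLocalRing.maximalIdeal A) A] [Finite (IsLocalRing.ResidueField A)]
  [CharZero F] [IsFractionRing A F] [FiniteDimensional F E] [FiniteDimensional E N] [IsGalois E N]
  [Algebra A E] [IsScalarTower A F E] [Algebra A N] [IsScalarTower A F N] [IsScalarTower A E N]
  [Algebra A F] [Algebra F E] in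
lemma unitsIncl_self (y : Eˣ) : unitsIncl E E y = y := by
  ext; rfl

omit [IsDomain A] [IsDiscreteValuationRing A]
  [IsAdicComplete (IsLocalRing.maximalIdeal A) A] [Finite (IsLocalRing.ResidueField A)]
  [CharZero F] [IsFractionRing A F] [FiniteDimensional F E] [FiniteDimensional E N] [IsGalois E N]
  [Algebra A E] [IsScalarTower A F E] [Algebra A N] [IsScalarTower A F N] [IsScalarTower A E N] in
/-- The exponent of the image in `N` of an element of `E`. -/
lemma exp_image {ϖE : Eˣ} {ϖ : Nˣ} {e : ℕ}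
    (he : unitsIncl N E ϖE * ϖ ^ (-(e : ℤ)) ∈ intUnits A F N) (y : Eˣ) (m : ℕ)
    (hm : y * ϖE ^ (-(m : ℤ)) ∈ intUnits A F E) :
    unitsIncl N E y * ϖ ^ (-((m * e : ℕ) : ℤ)) ∈ intUnits A F N :=
  ramExp_tower (K := E) (E := E) (N := N) (ϖK := y) (ϖE := ϖE) (ϖN := ϖ) (a := m) (b := e)
    (by rwa [unitsIncl_self E]) he

/-- A uniformizer of `E`, as an element of the ring of integers. -/
def unifOE {ϖE : Eˣ} (hE : IsUnif A F E ϖE) : integralClosure A E :=
  ⟨(ϖE : E), (H715.isInt_iff A F E _).1 hE.1⟩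

lemma unifOE_mem_under {ϖE : Eˣ} {ϖ : Nˣ} (hE : IsUnif A F E ϖE) (h : IsUnif A F N ϖ) {e : ℕ}
    (he0 : 0 < e) (he : unitsIncl N E ϖE * ϖ ^ (-(e : ℤ)) ∈ intUnits A F N) :
    unifOE A F E hE ∈ (maxON A F E N h).under (integralClosure A E) := by
  rw [Ideal.under_def, Ideal.mem_comap, ← pow_one (maxON A F E N h), mem_maxON_pow,
    coe_algebraMap_OE_ON]
  exact (isInt_mul_zpow_iff h he ((1 : ℕ) : ℤ)).2 (by exact_mod_cast he0)

lemma map_under_le {ϖE : Eˣ} {ϖ : Nˣ} (hE : IsUnif A F E ϖE) (h : IsUnif A F N ϖ) {e : ℕ}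
    (he : unitsIncl N E ϖE * ϖ ^ (-(e : ℤ)) ∈ intUnits A F N) :
    ((maxON A F E N h).under (integralClosure A E)).map
      (algebraMap (integralClosure A E) (integralClosure (integralClosure A E) N)) ≤
      maxON A F E N h ^ e := by
  rw [Ideal.map_le_iff_le_comap]
  intro r hr
  rw [Ideal.mem_comap, mem_maxON_pow, coe_algebraMap_OE_ON]
  have hr' : InMax A F N (algebraMap E N (r : E)) := (mem_maxON_iff A F E N h _).1 hr
  rcases eq_or_ne (r : E) 0 with h0 | h0
  · rw [h0, map_zero, zero_mul]; exact isInt_zero A F N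
  · obtain ⟨m, hm⟩ := hE.2.2 (Units.mk0 (r : E) h0)
    have hrint : IsInt A F E (r : E) := (H715.isInt_iff A F E _).2 r.2
    have hm0 : 0 ≤ m := unif_exp_nonneg hE hm hrint
    have hm1 : m ≠ 0 := by
      intro hm1
      have hu : Units.mk0 (r : E) h0 ∈ intUnits A F E := (unif_exp_eq_zero_iff hE hm).2 hm1
      have hu' := H294.unitsIncl_mem_intUnits_of_mem (L := N) hu
      refine hr'.2 _ hu'.2 ?_
      have : algebraMap E N (r : E) = ((unitsIncl N E (Units.mk0 (r : E) h0) : Nˣ) : N) := rfl
      rw [this, ← Units.val_mul, mul_inv_cancel, Units.val_one]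
    obtain ⟨m', rfl⟩ := Int.eq_ofNat_of_zero_le hm0
    have hm'pos : 0 < m' := by
      rcases Nat.eq_zero_or_pos m' with h | h
      · exact absurd (by rw [h]; rfl) hm1
      · exact h
    have h1 := exp_image A F E N he (Units.mk0 (r : E) h0) m' hm
    have h2 := (isInt_mul_zpow_iff h h1 (e : ℤ)).2
      (by exact_mod_cast Nat.le_mul_of_pos_left e hm'pos)
    exact h2

lemma not_map_under_le {ϖE : Eˣ} {ϖ : Nˣ} (hE : IsUnif A F E ϖE) (h : IsUnif A F N ϖ) {e : ℕ}
    (he0 : 0 < e) (he : unitsIncl N E ϖE * ϖ ^ (-(e : ℤ)) ∈ intUnits A F N) :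
    ¬ ((maxON A F E N h).under (integralClosure A E)).map
      (algebraMap (integralClosure A E) (integralClosure (integralClosure A E) N)) ≤
      maxON A F E N h ^ (e + 1) := by
  intro hle
  have := hle (Ideal.mem_map_of_mem _ (unifOE_mem_under A F E N hE h he0 he))
  rw [mem_maxON_pow] at this
  have h3 := (isInt_mul_zpow_iff h he ((e + 1 : ℕ) : ℤ)).1 this
  omega

lemma map_under_ne_bot {ϖE : Eˣ} {ϖ : Nˣ} (hE : IsUnif A F E ϖE) (h : IsUnif A F N ϖ) {e : ℕ}
    (he0 : 0 < e) (he : unitsIncl N E ϖE * ϖ ^ (-(e : ℤ)) ∈ intUnits A F N) :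
    ((maxON A F E N h).under (integralClosure A E)).map
      (algebraMap (integralClosure A E) (integralClosure (integralClosure A E) N)) ≠ ⊥ := by
  intro hbot
  have := Ideal.mem_map_of_mem
    (algebraMap (integralClosure A E) (integralClosure (integralClosure A E) N))
    (unifOE_mem_under A F E N hE h he0 he)
  rw [hbot, Ideal.mem_bot] at this
  have h0 := congrArg Subtype.val this
  rw [coe_algebraMap_OE_ON] at h0
  have h1 : algebraMap E N (ϖE : E) = 0 := h0
  rw [map_eq_zero] at h1
  exact ϖE.ne_zero h1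

/-- The inertia subgroup of a finite Galois extension `N / E` of local fields, with its
concrete description and its order (version with auxiliary `A`-algebra structures). -/
theorem exists_inertia_aux : ∃ J : Subgroup (N ≃ₐ[E] N),
    (∀ σ : N ≃ₐ[E] N, σ ∈ J ↔ ∀ x : N, IsInt A F N x → InMax A F N (σ x - x)) ∧
    ∀ (ϖE : Eˣ) (ϖN : Nˣ), IsUnif A F E ϖE → IsUnif A F N ϖN →
      unitsIncl N E ϖE * ϖN ^ (-(Nat.card J : ℤ)) ∈ intUnits A F N := by
  haveI : FiniteDimensional F N := FiniteDimensional.trans F E N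
  haveI : IsFractionRing (integralClosure A E) E := H715.isFractionRing_OL A F E
  haveI : IsDedekindDomain (integralClosure A E) := H715.isDedekindDomain_OL A F E
  haveI : IsDedekindDomain (integralClosure (integralClosure A E) N) :=
    IsIntegralClosure.isDedekindDomain (integralClosure A E) E N _
  haveI : Module.Finite (integralClosure A E) (integralClosure (integralClosure A E) N) :=
    IsIntegralClosure.finite (integralClosure A E) E N _
  haveI : IsFractionRing (integralClosure (integralClosure A E) N) N :=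
    IsIntegralClosure.isFractionRing_of_finite_extension (integralClosure A E) E N _
  obtain ⟨ϖ₀, h₀⟩ := H608.existsUnif A F N
  letI : MulSemiringAction (N ≃ₐ[E] N) (integralClosure (integralClosure A E) N) :=
    IsIntegralClosure.MulSemiringAction (integralClosure A E) E N
      (integralClosure (integralClosure A E) N)
  have hsmul : ∀ (σ : N ≃ₐ[E] N) (x : integralClosure (integralClosure A E) N),
      ((σ • x : integralClosure (integralClosure A E) N) : N) = σ (x : N) := fun σ x =>
    algebraMap_galRestrict_apply (integralClosure A E) σ x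
  refine ⟨(maxON A F E N h₀).inertia (N ≃ₐ[E] N), fun σ => ?_, ?_⟩
  · rw [AddSubgroup.mem_inertia]
    constructor
    · intro hσ x hx
      have := hσ ⟨x, (mem_ON_iff A F E N x).2 hx⟩
      have h2 := (mem_maxON_iff A F E N h₀ _).1 this
      rwa [Subalgebra.coe_sub, hsmul] at h2
    · intro hσ x
      show σ • x - x ∈ maxON A F E N h₀
      rw [mem_maxON_iff, Subalgebra.coe_sub, hsmul]
      exact hσ _ ((mem_ON_iff A F E N _).1 x.2)
  · intro ϖE ϖN hE hN
    obtain ⟨e, he0, he⟩ := exists_ramExp hE h₀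
    haveI := maxON_isMaximal A F E N h₀
    have hp0 : (maxON A F E N h₀).under (integralClosure A E) ≠ ⊥ := by
      intro hbot
      have := unifOE_mem_under A F E N hE h₀ he0 he
      rw [hbot, Ideal.mem_bot] at this
      exact ϖE.ne_zero (congrArg Subtype.val this)
    have hcard : Nat.card ((maxON A F E N h₀).inertia (N ≃ₐ[E] N)) = e :=
      card_inertia_gal (integralClosure A E) E N (integralClosure (integralClosure A E) N)
        (maxON A F E N h₀) (H715.finite_quotient_OL A F E _ hp0) e
        (map_under_le A F E N hE h₀ he) (not_map_under_le A F E N hE h₀ he0 he)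
        (map_under_ne_bot A F E N hE h₀ he0 he)
    rw [hcard]
    have hu := unif_div_unif hN h₀
    have h2 := (intUnits A F N).mul_mem he ((intUnits A F N).pow_mem hu e)
    have h3 : unitsIncl N E ϖE * ϖ₀ ^ (-(e : ℤ)) * (ϖ₀ * ϖN ^ (-(1 : ℤ))) ^ e =
        unitsIncl N E ϖE * ϖN ^ (-(e : ℤ)) := by
      rw [mul_pow, zpow_neg, zpow_natCast, zpow_neg, zpow_one, zpow_neg, zpow_natCast, inv_pow,
        mul_assoc, inv_mul_cancel_left]
    rwa [h3] at h2

end Bridge

section Final

variable (A F : Type) [CommRing A] [IsDomain A] [IsDiscreteValuationRing A]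
  [IsAdicComplete (IsLocalRing.maximalIdeal A) A] [Finite (IsLocalRing.ResidueField A)]
  [Field F] [CharZero F] [Algebra A F] [IsFractionRing A F]
  (E : Type) [Field E] [Algebra F E] [FiniteDimensional F E]
  (N : Type) [Field N] [Algebra F N] [Algebra E N] [IsScalarTower F E N]
  [FiniteDimensional E N] [IsGalois E N]

/-- The inertia subgroup `J` of a finite Galois extension `N / E` of local fields:
`σ ∈ J` iff `σ x - x` lies in the maximal ideal for every integral `x`, and
`ϖE = unit * ϖN ^ |J|`. -/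
theorem exists_inertia : ∃ J : Subgroup (N ≃ₐ[E] N),
    (∀ σ : N ≃ₐ[E] N, σ ∈ J ↔ ∀ x : N, IsInt A F N x → InMax A F N (σ x - x)) ∧
    ∀ (ϖE : Eˣ) (ϖN : Nˣ), IsUnif A F E ϖE → IsUnif A F N ϖN →
      unitsIncl N E ϖE * ϖN ^ (-(Nat.card J : ℤ)) ∈ intUnits A F N := by
  letI : Algebra A E := H715.algAL A F E
  haveI : IsScalarTower A F E := H715.isScalarTower_algAL A F E
  letI : Algebra A N := H715.algAL A F N
  haveI : IsScalarTower A F N := H715.isScalarTower_algAL A F N
  haveI : IsScalarTower A E N := IsScalarTower.of_algebraMap_eq (fun a => by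
    show toL A F N a = algebraMap E N (algebraMap F E (algebraMap A F a))
    rw [toL_apply, ← IsScalarTower.algebraMap_apply F E N])
  exact exists_inertia_aux A F E N

omit [IsDomain A] [IsDiscreteValuationRing A]
  [IsAdicComplete (IsLocalRing.maximalIdeal A) A] [Finite (IsLocalRing.ResidueField A)]
  [CharZero F] [IsFractionRing A F] [FiniteDimensional F E] [FiniteDimensional E N]
  [IsGalois E N] in
lemma inMax_algEquiv (τ : N ≃ₐ[E] N) {y : N} (hy : InMax A F N y) : InMax A F N (τ y) := by
  refine ⟨H294.isInt_algEquiv τ hy.1, fun z hz hyz => hy.2 (τ.symm z)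
    (H294.isInt_algEquiv τ.symm hz) ?_⟩
  have := congrArg τ.symm hyz
  rwa [map_mul, AlgEquiv.symm_apply_apply, map_one] at this

/-- **UR6'** (`InertiaCardStatement`). -/
theorem inertiaCard : InertiaCardStatement := by
  intro A F _ _ _ _ _ _ _ _ _ K _ _ _ N _ _ _ _ _ _
  obtain ⟨I, hIchar, hIcard⟩ := exists_inertia A F K N
  haveI : FiniteDimensional F N := FiniteDimensional.trans F K N
  obtain ⟨ϖK, hK⟩ := H608.existsUnif A F K
  obtain ⟨ϖN, hN⟩ := H608.existsUnif A F N
  refine ⟨I, ⟨fun σ hσ τ => ?_⟩, fun E => ?_, hIcard⟩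
  · -- normality
    rw [hIchar] at hσ ⊢
    intro x hx
    have hy : IsInt A F N (τ⁻¹ x) := H294.isInt_algEquiv τ⁻¹ hx
    have h1 := hσ _ hy
    have h2 : (τ * σ * τ⁻¹) x - x = τ (σ (τ⁻¹ x) - τ⁻¹ x) := by
      rw [map_sub, AlgEquiv.mul_apply, AlgEquiv.mul_apply]
      congr 1
      exact (AlgEquiv.apply_symm_apply τ x).symm
    rw [h2]
    exact inMax_algEquiv A F K N τ h1
  · letI algFE : Algebra F E := ((algebraMap K E).comp (algebraMap F K)).toAlgebra
    haveI towerFKE : @IsScalarTower F K E _ _ algFE.toSMul :=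
      @IsScalarTower.of_algebraMap_eq F K E _ _ _ _ _ algFE (fun _ => rfl)
    haveI towerFEN : @IsScalarTower F E N algFE.toSMul _ _ :=
      @IsScalarTower.of_algebraMap_eq F E N _ _ _ algFE _ _ (fun x => by
        show algebraMap F N x = algebraMap E N (algebraMap K E (algebraMap F K x))
        rw [IsScalarTower.algebraMap_apply F K N]
        rfl)
    haveI fdFE : @FiniteDimensional F E _ _ algFE.toModule :=
      @FiniteDimensional.trans F K E _ _ _ _ _ algFE.toModule towerFKE _ _
    obtain ⟨J, hJchar, hJcard⟩ := exists_inertia A F E N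
    obtain ⟨ϖE, hE⟩ := H608.existsUnif A F E
    have hb : Nat.card ↥(E.fixingSubgroup ⊓ I) = Nat.card J := by
      refine Nat.card_congr ?_
      exact
        { toFun := fun σ => ⟨IntermediateField.fixingSubgroupEquiv E ⟨σ.1, σ.2.1⟩,
            (hJchar _).2 (fun x hx => (hIchar σ.1).1 σ.2.2 x hx)⟩
          invFun := fun τ => ⟨((IntermediateField.fixingSubgroupEquiv E).symm τ.1).1,
            ⟨((IntermediateField.fixingSubgroupEquiv E).symm τ.1).2,
              (hIchar _).2 (fun x hx => (hJchar τ.1).1 τ.2 x hx)⟩⟩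
          left_inv := fun σ => Subtype.ext (AlgEquiv.ext fun x => rfl)
          right_inv := fun τ => Subtype.ext (AlgEquiv.ext fun x => rfl) }
    have hn := hIcard ϖK ϖN hK hN
    have hbN := hJcard ϖE ϖN hE hN
    obtain ⟨a, ha0, ha⟩ := exists_ramExp hK hE
    have htower := ramExp_tower (K := K) (E := E) (N := N) ha hbN
    have hnab : (Nat.card I : ℤ) = ((a * Nat.card J : ℕ) : ℤ) := unif_exp_unique hN hn htower
    have hnab' : Nat.card I = a * Nat.card J := by exact_mod_cast hnab
    have hJpos : 0 < Nat.card J := Nat.card_pos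
    show (IsUnram A F N E ↔ E.fixingSubgroup ⊓ I = ⊥) ∧ (IsUnram A F E K ↔ I ≤ E.fixingSubgroup)
    constructor
    · rw [isUnram_iff_ramExp_eq_one hE hN hbN, ← hb, Subgroup.card_eq_one]
    · rw [isUnram_iff_ramExp_eq_one hK hE ha]
      constructor
      · rintro rfl
        rw [one_mul] at hnab'
        have hle : E.fixingSubgroup ⊓ I ≤ I := inf_le_right
        have heq : E.fixingSubgroup ⊓ I = I :=
          Subgroup.eq_of_le_of_card_ge hle (by rw [hb, hnab'])
        rw [← heq]
        exact inf_le_left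
      · intro hle
        have heq : E.fixingSubgroup ⊓ I = I := inf_eq_right.2 hle
        rw [heq] at hb
        rw [hb] at hnab'
        have : 1 * Nat.card J = a * Nat.card J := by rw [one_mul]; exact hnab'
        exact (Nat.eq_of_mul_eq_mul_right hJpos this).symm

end Final

end Fermat.Agent.S55.Local.H959
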