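import Fermat.Agent.S55.Local.Spec2
import Fermat.Agent.S55.Local.H294.UR3Val
import Fermat.Agent.S55.Local.H724.Ramification

/-!
# S55, layer L, piece UR6' (helper959), part 1: the ramification exponent

Elementary consequences of `IsUnif` (no structure theory): for local fields `K ⊆ L` with
uniformizers `ϖK`, `ϖL` there is a unique `e ≥ 1` with `ϖK = unit * ϖL ^ e`
(`exists_ramExp`, `unif_exp_unique`), `L / K` is unramified iff `e = 1`
(`isUnram_iff_ramExp_eq_one`), and `e` is multiplicative in towers (`ramExp_tower`).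
-/

set_option autoImplicit false
set_option linter.unusedSectionVars false

namespace Fermat.Agent.S55.Local.H959

open Fermat.Agent.S55.Local

section Elementary

variable {A F : Type} [CommRing A] [Field F] [Algebra A F]
variable {L : Type} [Field L] [Algebra F L]

/-- The exponent `n` with `x = unit * ϖ ^ n` is unique. -/
lemma unif_exp_unique {ϖ : Lˣ} (h : IsUnif A F L ϖ) {x : Lˣ} {n m : ℤ}
    (hn : x * ϖ ^ (-n) ∈ intUnits A F L) (hm : x * ϖ ^ (-m) ∈ intUnits A F L) : n = m := by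
  have h1 : ϖ ^ (n - m) ∈ intUnits A F L := by
    have h2 := (intUnits A F L).mul_mem ((intUnits A F L).inv_mem hn) hm
    have h3 : (x * ϖ ^ (-n))⁻¹ * (x * ϖ ^ (-m)) = ϖ ^ (n - m) := by
      rw [mul_inv_rev, ← zpow_neg, neg_neg, mul_assoc, inv_mul_cancel_left, ← zpow_add]
      congr 1
    rwa [h3] at h2
  have := H724.zpow_mem_intUnits724 A F L h.1 h.2.1 h1
  omega

/-- The exponent of an integral element is nonnegative. -/
lemma unif_exp_nonneg {ϖ : Lˣ} (h : IsUnif A F L ϖ) {x : Lˣ} {n : ℤ}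
    (hn : x * ϖ ^ (-n) ∈ intUnits A F L) (hx : IsInt A F L (x : L)) : 0 ≤ n := by
  by_contra hneg
  rw [not_le] at hneg
  have h1 := H294.unif_not_isInt_of_neg h hneg hn
  apply h1
  have h2 : ϖ ^ n * (x * ϖ ^ (-n)) = x := by
    rw [mul_comm x, ← mul_assoc, ← zpow_add, add_neg_cancel, zpow_zero, one_mul]
  rw [h2]
  exact hx

/-- An element `unit * ϖ ^ n` with `0 ≤ n` is integral. -/
lemma unif_isInt_of_exp_nonneg {ϖ : Lˣ} (h : IsUnif A F L ϖ) {x : Lˣ} {n : ℤ}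
    (hn : x * ϖ ^ (-n) ∈ intUnits A F L) (h0 : 0 ≤ n) : IsInt A F L (x : L) := by
  obtain ⟨m, rfl⟩ := Int.eq_ofNat_of_zero_le h0
  have h2 : x = x * ϖ ^ (-(m : ℤ)) * ϖ ^ m := by
    rw [mul_assoc, ← zpow_natCast, ← zpow_add, neg_add_cancel, zpow_zero, mul_one]
  rw [h2, Units.val_mul, Units.val_pow_eq_pow_val]
  exact hn.1.mul (H294.unif_isInt_pow h m)

/-- An integral element whose exponent is `0` ... : `x` is an integral unit iff its exponent
vanishes. -/
lemma unif_exp_eq_zero_iff {ϖ : Lˣ} (h : IsUnif A F L ϖ) {x : Lˣ} {n : ℤ}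
    (hn : x * ϖ ^ (-n) ∈ intUnits A F L) : x ∈ intUnits A F L ↔ n = 0 := by
  constructor
  · intro hx
    have h0 : x * ϖ ^ (-(0 : ℤ)) ∈ intUnits A F L := by simpa using hx
    exact unif_exp_unique h hn h0
  · rintro rfl
    simpa using hn

/-- Two uniformizers differ by an integral unit. -/
lemma unif_div_unif {ϖ ϖ' : Lˣ} (h : IsUnif A F L ϖ) (h' : IsUnif A F L ϖ') :
    ϖ' * ϖ ^ (-(1 : ℤ)) ∈ intUnits A F L := by
  obtain ⟨n, hn⟩ := h.2.2 ϖ'
  obtain ⟨m, hm⟩ := h'.2.2 ϖ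
  have hn0 : 0 ≤ n := unif_exp_nonneg h hn h'.1
  have hm0 : 0 ≤ m := unif_exp_nonneg h' hm h.1
  have hn1 : n ≠ 0 := fun h0 => h'.2.1 ((unif_exp_eq_zero_iff h hn).2 h0)
  have hm1 : m ≠ 0 := fun h0 => h.2.1 ((unif_exp_eq_zero_iff h' hm).2 h0)
  -- `ϖ' = u ϖ^n`, `ϖ = v ϖ'^m`, so `ϖ' ^ (1 - n m)` is a unit
  have h1 : ϖ' ^ (1 - m * n) ∈ intUnits A F L := by
    have h2 := (intUnits A F L).mul_mem hn ((intUnits A F L).zpow_mem hm n)
    have h3 : ϖ' * ϖ ^ (-n) * (ϖ * ϖ' ^ (-m)) ^ n = ϖ' ^ (1 - m * n) := by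
      rw [mul_zpow, ← zpow_mul, zpow_sub, zpow_one, zpow_neg, mul_assoc,
        inv_mul_cancel_left, neg_mul, zpow_neg]
    rwa [h3] at h2
  have h4 := H724.zpow_mem_intUnits724 A F L h'.1 h'.2.1 h1
  have h5 : m * n = 1 := by omega
  have h6 : n = 1 := by
    rcases Int.eq_one_or_neg_one_of_mul_eq_one h5 with h | h
    · rw [h, one_mul] at h5; exact h5
    · omega
  rwa [h6] at hn

variable {K : Type} [Field K] [Algebra F K] [Algebra K L] [IsScalarTower F K L]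

/-- The ramification exponent: `ϖK = unit * ϖL ^ e` with `e ≥ 1`. -/
lemma exists_ramExp {ϖK : Kˣ} {ϖL : Lˣ} (hK : IsUnif A F K ϖK) (hL : IsUnif A F L ϖL) :
    ∃ e : ℕ, 0 < e ∧ unitsIncl L K ϖK * ϖL ^ (-(e : ℤ)) ∈ intUnits A F L := by
  obtain ⟨n, hn⟩ := hL.2.2 (unitsIncl L K ϖK)
  have hint : IsInt A F L ((unitsIncl L K ϖK : Lˣ) : L) := by
    rw [unitsIncl_coe]
    exact (H724.isInt_algebraMap_iff724 A F K L _).2 hK.1
  have hn0 : 0 ≤ n := unif_exp_nonneg hL hn hint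
  have hn1 : n ≠ 0 := fun h0 => hK.2.1
    ((H724.unitsIncl_mem_intUnits_iff724 A F K L ϖK).1 ((unif_exp_eq_zero_iff hL hn).2 h0))
  obtain ⟨e, rfl⟩ := Int.eq_ofNat_of_zero_le hn0
  exact ⟨e, by omega, hn⟩

/-- `L / K` is unramified iff the ramification exponent is `1`. -/
lemma isUnram_iff_ramExp_eq_one {ϖK : Kˣ} {ϖL : Lˣ} (hK : IsUnif A F K ϖK)
    (hL : IsUnif A F L ϖL) {e : ℕ}
    (he : unitsIncl L K ϖK * ϖL ^ (-(e : ℤ)) ∈ intUnits A F L) :
    IsUnram A F L K ↔ e = 1 := by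
  constructor
  · intro hur
    have h1 : IsUnif A F L (unitsIncl L K ϖK) := H294.isUnif_unitsIncl hur hK
    have h2 := unif_div_unif hL h1
    have := unif_exp_unique hL he h2
    exact_mod_cast this
  · rintro rfl x
    obtain ⟨n, hn⟩ := hL.2.2 x
    refine ⟨ϖK ^ n, ?_⟩
    have h2 := (intUnits A F L).mul_mem hn
      ((intUnits A F L).inv_mem ((intUnits A F L).zpow_mem he n))
    have h3 : x * ϖL ^ (-n) * ((unitsIncl L K ϖK * ϖL ^ (-((1 : ℕ) : ℤ))) ^ n)⁻¹ =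
        x * (unitsIncl L K (ϖK ^ n))⁻¹ := by
      rw [map_zpow, mul_zpow, mul_inv, ← zpow_mul, Nat.cast_one, neg_one_mul, zpow_neg ϖL n,
        inv_inv, mul_assoc]
      congr 1
      rw [mul_comm ((unitsIncl L K ϖK ^ n)⁻¹), inv_mul_cancel_left]
    rwa [h3] at h2

end Elementary

section Tower

variable {A F : Type} [CommRing A] [Field F] [Algebra A F]
variable {K : Type} [Field K] [Algebra F K]
variable {E : Type} [Field E] [Algebra F E] [Algebra K E] [IsScalarTower F K E]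
variable {N : Type} [Field N] [Algebra F N] [Algebra K N] [Algebra E N]
  [IsScalarTower F E N] [IsScalarTower K E N]

lemma unitsIncl_unitsIncl (y : Kˣ) : unitsIncl N E (unitsIncl E K y) = unitsIncl N K y := by
  ext
  simp only [unitsIncl_coe]
  exact (IsScalarTower.algebraMap_apply K E N _).symm

/-- The ramification exponent is multiplicative in towers. -/
lemma ramExp_tower {ϖK : Kˣ} {ϖE : Eˣ} {ϖN : Nˣ} {a b : ℕ}
    (ha : unitsIncl E K ϖK * ϖE ^ (-(a : ℤ)) ∈ intUnits A F E)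
    (hb : unitsIncl N E ϖE * ϖN ^ (-(b : ℤ)) ∈ intUnits A F N) :
    unitsIncl N K ϖK * ϖN ^ (-((a * b : ℕ) : ℤ)) ∈ intUnits A F N := by
  have h1 : unitsIncl N E (unitsIncl E K ϖK * ϖE ^ (-(a : ℤ))) ∈ intUnits A F N :=
    H294.unitsIncl_mem_intUnits_of_mem ha
  have h2 := (intUnits A F N).mul_mem h1 ((intUnits A F N).pow_mem hb a)
  have h3 : unitsIncl N E (unitsIncl E K ϖK * ϖE ^ (-(a : ℤ))) *
      (unitsIncl N E ϖE * ϖN ^ (-(b : ℤ))) ^ a = unitsIncl N K ϖK * ϖN ^ (-((a * b : ℕ) : ℤ)) := by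
    rw [map_mul, unitsIncl_unitsIncl, map_zpow, mul_pow, zpow_neg, zpow_natCast, zpow_neg,
      zpow_natCast, zpow_neg, zpow_natCast, inv_pow, ← pow_mul, mul_comm b a, mul_assoc,
      inv_mul_cancel_left]
  rwa [h3] at h2

end Tower

end Fermat.Agent.S55.Local.H959
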